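import Mathlib

/-!
# S14, block GALOIS (helper716) — abstract linear algebra part

`V` a `ZMod p`-module with an action of a group `G`, `C ⊆ V` a line fixed pointwise,
`G` acting on `V / C` through a character `χ`.
-/

set_option autoImplicit false
set_option linter.style.haveILetI false
set_option linter.unusedSectionVars false

namespace Fermat.Agent.S14.H716

section Abstract

variable {p : ℕ} [hp : Fact p.Prime] {G : Type*} [Group G]
  {V : Type*} [AddCommGroup V] [Module (ZMod p) V] [DistribMulAction G V]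
  [SMulCommClass G (ZMod p) V]

/-- The abstract shape of an admissible extension: `C` is fixed pointwise, `G` acts on `V/C`
through `χ`, `C` has `p` elements and `V` has `p²`. -/
structure Adm (C : Submodule (ZMod p) V) (χ : G →* (ZMod p)ˣ) : Prop where
  fixed_sub : ∀ σ : G, ∀ x ∈ C, σ • x = x
  cyclo_quot : ∀ σ : G, ∀ x : V, σ • x - ((χ σ : (ZMod p)ˣ) : ZMod p) • x ∈ C
  card_sub : Nat.card C = p
  card_total : Nat.card V = p ^ 2

variable {C : Submodule (ZMod p) V} {χ : G →* (ZMod p)ˣ}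

namespace Adm

theorem finite_V (h : Adm C χ) : Finite V := by
  apply Nat.finite_of_card_ne_zero
  rw [h.card_total]
  exact pow_ne_zero _ hp.out.ne_zero

theorem finrank_V (h : Adm C χ) : Module.finrank (ZMod p) V = 2 := by
  haveI := h.finite_V
  have h1 := Module.natCard_eq_pow_finrank (K := ZMod p) (V := V)
  rw [h.card_total, Nat.card_zmod] at h1
  exact (Nat.pow_right_injective hp.out.two_le h1).symm

theorem finrank_C (h : Adm C χ) : Module.finrank (ZMod p) C = 1 := by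
  haveI := h.finite_V
  have h1 := Module.natCard_eq_pow_finrank (K := ZMod p) (V := C)
  rw [h.card_sub, Nat.card_zmod] at h1
  have h2 : p ^ 1 = p ^ Module.finrank (ZMod p) C := by rw [pow_one]; exact h1
  exact (Nat.pow_right_injective hp.out.two_le h2).symm

theorem exists_not_mem (h : Adm C χ) : ∃ x₀ : V, x₀ ∉ C := by
  haveI := h.finite_V
  by_contra hcon
  push Not at hcon
  have htop : C = ⊤ := by
    rw [eq_top_iff]; intro x _; exact hcon x
  have h1 := h.finrank_C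
  rw [htop, finrank_top, h.finrank_V] at h1
  omega

/-- `V = C + F_p x₀` for any `x₀ ∉ C`. -/
theorem sup_span_eq_top (h : Adm C χ) {x₀ : V} (hx₀ : x₀ ∉ C) :
    C ⊔ Submodule.span (ZMod p) {x₀} = ⊤ := by
  haveI := h.finite_V
  haveI : Module.Finite (ZMod p) V := Module.Finite.of_finite
  apply Submodule.eq_top_of_finrank_eq
  rw [h.finrank_V]
  have hlt : C < C ⊔ Submodule.span (ZMod p) {x₀} := by
    refine lt_of_le_of_ne le_sup_left ?_
    intro heq
    apply hx₀
    rw [heq]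
    exact Submodule.mem_sup_right (Submodule.mem_span_singleton_self x₀)
  have h1 := Submodule.finrank_lt_finrank_of_lt hlt
  rw [h.finrank_C] at h1
  have h2 := Submodule.finrank_le (C ⊔ Submodule.span (ZMod p) {x₀})
  rw [h.finrank_V] at h2
  omega

theorem exists_decomp (h : Adm C χ) {x₀ : V} (hx₀ : x₀ ∉ C) (v : V) :
    ∃ c ∈ C, ∃ a : ZMod p, v = c + a • x₀ := by
  have hv : v ∈ C ⊔ Submodule.span (ZMod p) {x₀} := by
    rw [h.sup_span_eq_top hx₀]; trivial
  obtain ⟨c, hc, y, hy, rfl⟩ := Submodule.mem_sup.mp hv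
  obtain ⟨a, rfl⟩ := Submodule.mem_span_singleton.mp hy
  exact ⟨c, hc, a, rfl⟩

/-- `C` is a line: every element is a multiple of any nonzero element. -/
theorem exists_smul_eq (h : Adm C χ) {c₀ : V} (hc₀ : c₀ ∈ C) (hne : c₀ ≠ 0) {c : V} (hc : c ∈ C) :
    ∃ a : ZMod p, c = a • c₀ := by
  haveI := h.finite_V
  have h1 : Module.finrank (ZMod p) C = 1 := h.finrank_C
  have hne' : (⟨c₀, hc₀⟩ : C) ≠ 0 := by
    intro h0
    apply hne
    exact congrArg Subtype.val h0
  obtain ⟨a, ha⟩ := (finrank_eq_one_iff_of_nonzero' (⟨c₀, hc₀⟩ : C) hne').mp h1 ⟨c, hc⟩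
  refine ⟨a, ?_⟩
  have := congrArg Subtype.val ha
  simpa using this.symm

/-- If `σ` fixes some `x₀ ∉ C` then `σ` acts trivially on `V`. -/
theorem smul_eq_of_fixes (h : Adm C χ) {x₀ : V} (hx₀ : x₀ ∉ C) {σ : G} (hσ : σ • x₀ = x₀)
    (v : V) : σ • v = v := by
  obtain ⟨c, hc, a, rfl⟩ := h.exists_decomp hx₀ v
  rw [smul_add, h.fixed_sub σ c hc, smul_comm, hσ]

/-- An element acting trivially on `V` lies in the kernel of `χ`. -/
theorem chi_eq_one_of_trivial (h : Adm C χ) {σ : G} (hσ : ∀ v : V, σ • v = v) : χ σ = 1 := by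
  obtain ⟨x₀, hx₀⟩ := h.exists_not_mem
  have h1 := h.cyclo_quot σ x₀
  rw [hσ x₀] at h1
  by_contra hne
  have hne' : (1 : ZMod p) - ((χ σ : (ZMod p)ˣ) : ZMod p) ≠ 0 := by
    intro h0
    apply hne
    ext
    rw [sub_eq_zero] at h0
    simpa using h0.symm
  have h2 : ((1 : ZMod p) - ((χ σ : (ZMod p)ˣ) : ZMod p)) • x₀ ∈ C := by
    rw [sub_smul, one_smul]; exact h1
  apply hx₀
  have h3 := C.smul_mem ((1 : ZMod p) - ((χ σ : (ZMod p)ˣ) : ZMod p))⁻¹ h2
  rwa [smul_smul, inv_mul_cancel₀ hne', one_smul] at h3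

/-- For `h ∈ ker χ`, `h • x - x ∈ C`. -/
theorem sub_mem_of_chi_eq_one (h : Adm C χ) {σ : G} (hσ : χ σ = 1) (x : V) :
    σ • x - x ∈ C := by
  have h1 := h.cyclo_quot σ x
  rwa [hσ, Units.val_one, one_smul] at h1

/-- On `ker χ` the map `h ↦ h • x - x` is additive. -/
theorem sub_mul (h : Adm C χ) {σ τ : G} (_hσ : χ σ = 1) (hτ : χ τ = 1) (x : V) :
    (σ * τ) • x - x = (σ • x - x) + (τ • x - x) := by
  have h1 : σ • (τ • x - x) = τ • x - x := h.fixed_sub σ _ (h.sub_mem_of_chi_eq_one hτ x)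
  rw [smul_sub] at h1
  rw [mul_smul]
  have : σ • τ • x = τ • x - x + σ • x := by
    rw [← h1]; abel
  rw [this]; abel

theorem sub_pow (h : Adm C χ) {σ : G} (hσ : χ σ = 1) (x : V) (n : ℕ) :
    (σ ^ n) • x - x = n • (σ • x - x) := by
  induction n with
  | zero => simp
  | succ n ih =>
    have hn : χ (σ ^ n) = 1 := by rw [map_pow, hσ, one_pow]
    rw [pow_succ, h.sub_mul hn hσ, ih, succ_nsmul]

/-- Conjugation formula: `(τ⁻¹ h τ) x - x = χ(τ) (h x - x)` for `h ∈ ker χ`. -/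
theorem sub_conj (h : Adm C χ) {σ : G} (hσ : χ σ = 1) (τ : G) (x : V) :
    (τ⁻¹ * σ * τ) • x - x = ((χ τ : (ZMod p)ˣ) : ZMod p) • (σ • x - x) := by
  set a : ZMod p := ((χ τ : (ZMod p)ˣ) : ZMod p) with ha
  -- τ x = a x + c
  set c : V := τ • x - a • x with hc
  have hcC : c ∈ C := h.cyclo_quot τ x
  have hτx : τ • x = a • x + c := by rw [hc]; abel
  have hbC : σ • x - x ∈ C := h.sub_mem_of_chi_eq_one hσ x
  -- σ (τ x) = a (σ x) + c
  have h1 : σ • τ • x = a • (σ • x) + c := by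
    rw [hτx, smul_add, smul_comm, h.fixed_sub σ c hcC]
  -- = τ x + a (σ x - x)
  have h2 : σ • τ • x = τ • x + a • (σ • x - x) := by
    rw [h1, hτx, smul_sub]; abel
  have h3 : τ⁻¹ • (a • (σ • x - x)) = a • (σ • x - x) :=
    h.fixed_sub τ⁻¹ _ (C.smul_mem a hbC)
  rw [mul_smul, mul_smul, h2, smul_add, inv_smul_smul, h3]
  abel

end Adm

end Abstract

end Fermat.Agent.S14.H716

namespace Fermat.Agent.S14.H716

section Split

variable {p : ℕ} [hp : Fact p.Prime] {G : Type*} [Group G]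
  {V : Type*} [AddCommGroup V] [Module (ZMod p) V] [DistribMulAction G V]
  [SMulCommClass G (ZMod p) V] {C : Submodule (ZMod p) V} {χ : G →* (ZMod p)ˣ}

/-- Split case: if `ker χ` acts trivially on `V` and `χ` is nontrivial, then the
`χ(σ₀)`-eigenspace of `σ₀` is a `G`-stable complement of `C`. -/
theorem Adm.exists_stable_compl (h : Adm C χ)
    (htriv : ∀ σ : G, χ σ = 1 → ∀ v : V, σ • v = v) {σ₀ : G} (hσ₀ : χ σ₀ ≠ 1) :
    ∃ C' : Submodule (ZMod p) V, (∀ σ : G, ∀ x ∈ C', σ • x ∈ C') ∧ IsCompl C C' := by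
  set a : ZMod p := ((χ σ₀ : (ZMod p)ˣ) : ZMod p) with ha
  have hne : (1 : ZMod p) - a ≠ 0 := by
    intro h0
    apply hσ₀
    ext
    rw [sub_eq_zero] at h0
    rw [Units.val_one, ← ha]
    exact h0.symm
  let f : V →ₗ[ZMod p] V := DistribSMul.toLinearMap (ZMod p) V σ₀ - a • LinearMap.id
  have hf : ∀ x, f x = σ₀ • x - a • x := fun x => rfl
  refine ⟨LinearMap.ker f, ?_, ?_⟩
  · intro τ x hx
    rw [LinearMap.mem_ker, hf, sub_eq_zero] at hx ⊢
    -- commutator acts trivially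
    have hcomm : χ (σ₀⁻¹ * τ⁻¹ * σ₀ * τ) = 1 := by
      simp only [map_mul, map_inv]
      rw [mul_comm ((χ σ₀)⁻¹) ((χ τ)⁻¹), mul_assoc ((χ τ)⁻¹), inv_mul_cancel, mul_one,
        inv_mul_cancel]
    have h1 := htriv _ hcomm x
    have h2 : σ₀ • τ • x = τ • σ₀ • x := by
      have : σ₀ • τ • x = τ • σ₀ • ((σ₀⁻¹ * τ⁻¹ * σ₀ * τ) • x) := by
        simp only [← mul_smul]
        congr 1
        group
      rw [this, h1]
    rw [h2, hx, smul_comm]
  · refine IsCompl.of_eq ?_ ?_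
    · rw [eq_bot_iff]
      rintro x ⟨hxC, hxK⟩
      rw [SetLike.mem_coe, LinearMap.mem_ker, hf, h.fixed_sub σ₀ x hxC] at hxK
      have h1 : ((1 : ZMod p) - a) • x = 0 := by rw [sub_smul, one_smul]; exact hxK
      have h2 := congrArg (fun y => ((1 : ZMod p) - a)⁻¹ • y) h1
      simp only [smul_smul, inv_mul_cancel₀ hne, one_smul, smul_zero] at h2
      exact h2
    · rw [eq_top_iff]
      intro v _
      have hcC : σ₀ • v - a • v ∈ C := h.cyclo_quot σ₀ v
      set c : V := ((1 : ZMod p) - a)⁻¹ • (σ₀ • v - a • v) with hc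
      have hcC' : c ∈ C := C.smul_mem _ hcC
      have hmul : ((1 : ZMod p) - a) • c = σ₀ • v - a • v := by
        rw [hc, smul_smul, mul_inv_cancel₀ hne, one_smul]
      refine Submodule.mem_sup.mpr ⟨c, hcC', v - c, ?_, by abel⟩
      rw [LinearMap.mem_ker, hf, smul_sub, smul_sub, h.fixed_sub σ₀ c hcC']
      have : σ₀ • v - c - (a • v - a • c) = (σ₀ • v - a • v) - ((1 : ZMod p) - a) • c := by
        rw [sub_smul, one_smul]; abel
      rw [this, hmul, sub_self]

end Split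

end Fermat.Agent.S14.H716
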