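import Mathlib
import Fermat.Prelude.Def_ExtCitation_AdmissibleExtension_v2
import Fermat.Prelude.Def_ExtCitation_KummerBridge
import Fermat.Agent.S14.H716.Abstract

/-!
# S14, block GALOIS (helper716) — the cyclotomic character on `Gal(ℚ̄/ℚ)`
-/

set_option autoImplicit false
set_option linter.style.haveILetI false
set_option linter.unusedSectionVars false

namespace Fermat.Agent.S14.H716

open ExtCitation

/-- `ℚ̄`. -/
abbrev Qb : Type := AlgebraicClosure ℚ

/-- The absolute Galois group of `ℚ`. -/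
abbrev GQ : Type := AlgebraicClosure ℚ ≃ₐ[ℚ] AlgebraicClosure ℚ

section Cyclo

variable (p : ℕ) [hp : Fact p.Prime]

/-- `σ ζ = ζ ^ cycloExp σ` for every `p`-th root of unity `ζ`. -/
theorem map_of_pow_eq_one {ζ : Qb} (hζ : ζ ^ p = 1) (σ : GQ) : σ ζ = ζ ^ (cycloExp p σ) := by
  haveI : NeZero p := ⟨hp.out.ne_zero⟩
  let t : Qbˣ := Units.ofPowEqOne ζ p hζ hp.out.ne_zero
  have ht : t ∈ rootsOfUnity p Qb := by
    rw [mem_rootsOfUnity]
    exact Units.pow_ofPowEqOne hζ hp.out.ne_zero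
  have h1 := modularCyclotomicCharacter.spec Qb (card_rootsOfUnity_eq_self p)
    (σ : Qb ≃+* Qb) ht
  exact h1

theorem cycloExp_lt (σ : GQ) : cycloExp p σ < p := by
  haveI : NeZero p := ⟨hp.out.ne_zero⟩
  exact ZMod.val_lt _

theorem cycloExp_pos (σ : GQ) : 0 < cycloExp p σ := by
  haveI : NeZero p := ⟨hp.out.ne_zero⟩
  rw [← val_cycloChar, Nat.pos_iff_ne_zero]
  intro h0
  rw [ZMod.val_eq_zero] at h0
  exact (cycloChar p σ).ne_zero h0

theorem cycloChar_eq_one_iff {ζ : Qb} (hζ : IsPrimitiveRoot ζ p) (σ : GQ) :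
    cycloChar p σ = 1 ↔ σ ζ = ζ := by
  haveI : NeZero p := ⟨hp.out.ne_zero⟩
  haveI : Fact (1 < p) := ⟨hp.out.one_lt⟩
  constructor
  · intro h
    have h1 := map_of_pow_eq_one p hζ.pow_eq_one σ
    rw [← val_cycloChar, h, Units.val_one, ZMod.val_one, pow_one] at h1
    exact h1
  · intro h
    have h1 := map_of_pow_eq_one p hζ.pow_eq_one σ
    rw [h] at h1
    have h2 : cycloExp p σ = 1 := by
      apply hζ.pow_inj (cycloExp_lt p σ) hp.out.one_lt
      rw [pow_one]; exact h1.symm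
    ext
    rw [coe_cycloChar, h2, Nat.cast_one, Units.val_one]

/-- An automorphism fixing `ζ` fixes `ℚ(ζ)` pointwise. -/
theorem map_eq_of_mem_adjoin {ζ : Qb} {σ : GQ} (h : σ ζ = ζ) {x : Qb}
    (hx : x ∈ IntermediateField.adjoin ℚ {ζ}) : σ x = x := by
  have hle : IntermediateField.adjoin ℚ {ζ} ≤
      IntermediateField.fixedField (Subgroup.zpowers σ) := by
    rw [IntermediateField.adjoin_le_iff]
    rintro y hy
    rw [Set.mem_singleton_iff] at hy
    subst hy
    rw [SetLike.mem_coe, IntermediateField.mem_fixedField_iff]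
    intro τ hτ
    obtain ⟨n, rfl⟩ := Subgroup.mem_zpowers_iff.mp hτ
    have hfix : ∀ m : ℕ, (σ ^ m) y = y := by
      intro m
      induction m with
      | zero => simp
      | succ m ih => rw [pow_succ, AlgEquiv.mul_apply, h, ih]
    have hfix' : ∀ m : ℕ, (σ ^ m)⁻¹ y = y := by
      intro m
      have := hfix m
      calc (σ ^ m)⁻¹ y = (σ ^ m)⁻¹ ((σ ^ m) y) := by rw [this]
        _ = y := by rw [← AlgEquiv.mul_apply, inv_mul_cancel]; rfl
    cases n with
    | ofNat m => simpa using hfix m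
    | negSucc m => simpa using hfix' (m + 1)
  have := hle hx
  rw [IntermediateField.mem_fixedField_iff] at this
  exact this σ (Subgroup.mem_zpowers σ)

theorem isGalois_Qb : IsGalois ℚ Qb := by
  haveI : Algebra.IsAlgebraic ℚ (AlgebraicClosure ℚ) := AlgebraicClosure.isAlgebraic ℚ
  haveI : IsAlgClosure ℚ (AlgebraicClosure ℚ) := ⟨inferInstance, inferInstance⟩
  haveI : Normal ℚ (AlgebraicClosure ℚ) := IsAlgClosure.normal ℚ (AlgebraicClosure ℚ)
  exact isGalois_iff.mpr ⟨inferInstance, inferInstance⟩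

/-- An element fixed by every automorphism fixing `ζ` lies in `ℚ(ζ)`. -/
theorem mem_adjoin_of_fixed {ζ : Qb} {x : Qb} (h : ∀ σ : GQ, σ ζ = ζ → σ x = x) :
    x ∈ IntermediateField.adjoin ℚ {ζ} := by
  haveI := isGalois_Qb
  rw [← InfiniteGalois.fixedField_fixingSubgroup (IntermediateField.adjoin ℚ {ζ}),
    IntermediateField.mem_fixedField_iff]
  intro σ hσ
  apply h
  exact (IntermediateField.mem_fixingSubgroup_iff _ σ).mp hσ ζ
    (IntermediateField.subset_adjoin ℚ _ (Set.mem_singleton ζ))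

/-- The cyclotomic character is nontrivial for `p ≥ 3`. -/
theorem exists_cycloChar_ne_one (h3 : 3 ≤ p) : ∃ σ : GQ, cycloChar p σ ≠ 1 := by
  haveI := isGalois_Qb
  haveI : NeZero p := ⟨hp.out.ne_zero⟩
  obtain ⟨ζ, hζ⟩ : ∃ ζ : Qb, IsPrimitiveRoot ζ p :=
    HasEnoughRootsOfUnity.exists_primitiveRoot Qb p
  by_contra hcon
  push Not at hcon
  have hmem : ζ ∈ (⊥ : IntermediateField ℚ Qb) := by
    rw [InfiniteGalois.mem_bot_iff_fixed]
    intro σ
    exact (cycloChar_eq_one_iff p hζ σ).mp (hcon σ)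
  obtain ⟨q, hq⟩ := IntermediateField.mem_bot.mp hmem
  -- a rational primitive p-th root of unity forces p ≤ 2
  have hq' : IsPrimitiveRoot q p := by
    have : IsPrimitiveRoot (algebraMap ℚ Qb q) p := by rw [hq]; exact hζ
    exact this.of_map_of_injective (FaithfulSMul.algebraMap_injective ℚ Qb)
  have hqp : q ^ p = 1 := hq'.pow_eq_one
  have hodd : Odd p := hp.out.odd_of_ne_two (by omega)
  have hq1 : q = 1 := by
    rcases hodd with ⟨k, hk⟩
    by_contra hne
    have habs : |q| = 1 := by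
      have h1 : |q| ^ p = 1 := by rw [← abs_pow, hqp, abs_one]
      exact (pow_eq_one_iff_of_nonneg (abs_nonneg q) hp.out.ne_zero).mp h1
    rcases abs_eq (zero_le_one' ℚ) |>.mp habs with h | h
    · exact hne h
    · rw [h, hk, pow_succ, pow_mul] at hqp
      norm_num at hqp
  rw [hq1] at hq'
  have := hq'.eq_orderOf
  rw [orderOf_one] at this
  omega

end Cyclo

end Fermat.Agent.S14.H716
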