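import Fermat.Agent.S14.H716.Resolvent

/-!
# S14, block GALOIS (helper716)

From a non-split admissible extension `V` we produce a Kummer generator `β ∈ ℚ̄`:
`β ^ p ∈ ℚ(ζ)`, `β ∉ ℚ(ζ)`, every automorphism acting trivially on `V` fixes `β`, and `β` has
type `ω²`: `σ β = β ^ (cycloExp σ ^ 2) * y` with `y ∈ ℚ(ζ)`.
-/

set_option autoImplicit false
set_option linter.style.haveILetI false
set_option linter.unusedSectionVars false

namespace Fermat.Agent.S14.H716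

open ExtCitation

section Main

variable {p : ℕ} [hp : Fact p.Prime]
  {V : Type} [AddCommGroup V] [Module (ZMod p) V] [DistribMulAction GQ V]
  [SMulCommClass GQ (ZMod p) V] {C : Submodule (ZMod p) V}

theorem adm_of (hadm : IsAdmissibleExtension p V C) : Adm C (cycloChar p) where
  fixed_sub := hadm.fixed_sub
  cyclo_quot := fun σ x => by rw [coe_cycloChar]; exact hadm.cyclo_quot σ x
  card_sub := hadm.card_sub
  card_total := hadm.card_total

/-- The kernel of the action of `Gal(ℚ̄/ℚ)` on `V`. -/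
def actKer (V : Type) [AddCommGroup V] [DistribMulAction GQ V] : Subgroup GQ where
  carrier := {σ | ∀ v : V, σ • v = v}
  one_mem' := fun v => one_smul _ v
  mul_mem' := fun {a b} ha hb v => by rw [mul_smul, hb v, ha v]
  inv_mem' := fun {a} ha v => by rw [inv_smul_eq_iff, ha v]

theorem mem_actKer {σ : GQ} : σ ∈ actKer V ↔ ∀ v : V, σ • v = v := Iff.rfl

theorem actKer_normal : (actKer V).Normal :=
  ⟨fun n hn g v => by
    rw [mul_smul, mul_smul, mem_actKer.mp hn, smul_inv_smul]⟩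

/-- **GALOIS block.** -/
theorem galois_block (h3 : 3 ≤ p) (hadm : IsAdmissibleExtensionCts p V C)
    (hns : ¬ SplitsGlobally C) {ζ : Qb} (hζ : IsPrimitiveRoot ζ p) :
    ∃ β : Qb, β ≠ 0 ∧ β ^ p ∈ IntermediateField.adjoin ℚ {ζ} ∧
      β ∉ IntermediateField.adjoin ℚ {ζ} ∧
      (∀ σ : GQ, (∀ v : V, σ • v = v) → σ β = β) ∧
      (∀ σ : GQ, σ ζ = ζ → ∃ k : ℕ, σ β = ζ ^ k * β) ∧
      (∀ σ : GQ, ∃ y ∈ IntermediateField.adjoin ℚ {ζ},
        σ β = β ^ (cycloExp p σ ^ 2) * y) := by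
  have hA : Adm C (cycloChar p) := adm_of hadm.toIsAdmissibleExtension
  have hζ0 : ζ ≠ 0 := hζ.ne_zero hp.out.ne_zero
  have hζp : (ζ⁻¹) ^ p = 1 := by rw [inv_pow, hζ.pow_eq_one, inv_one]
  have hNopen : IsOpen ((actKer V : Subgroup GQ) : Set GQ) := hadm.open_kernel
  have hNn : (actKer V).Normal := actKer_normal
  -- existence of h₀ ∈ ker χ \ N
  have hex : ∃ h₀ : GQ, cycloChar p h₀ = 1 ∧ h₀ ∉ actKer V := by
    by_contra hcon
    push Not at hcon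
    obtain ⟨σ₀, hσ₀⟩ := exists_cycloChar_ne_one p h3
    exact hns (hA.exists_stable_compl (fun σ hσ v => mem_actKer.mp (hcon σ hσ) v) hσ₀)
  obtain ⟨h₀, hh₀, hh₀N⟩ := hex
  obtain ⟨x₀, hx₀⟩ := hA.exists_not_mem
  have hmemN : ∀ h : GQ, h • x₀ - x₀ = 0 → h ∈ actKer V := fun h h0 =>
    mem_actKer.mpr (hA.smul_eq_of_fixes hx₀ (sub_eq_zero.mp h0))
  have hb₀ : h₀ • x₀ - x₀ ≠ 0 := fun h0 => hh₀N (hmemN h₀ h0)
  have hb₀C : h₀ • x₀ - x₀ ∈ C := hA.sub_mem_of_chi_eq_one hh₀ x₀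
  have hNχ : ∀ n ∈ actKer V, cycloChar p n = 1 := fun n hn =>
    hA.chi_eq_one_of_trivial (mem_actKer.mp hn)
  have hNζ : ∀ n ∈ actKer V, n ζ = ζ := fun n hn =>
    (cycloChar_eq_one_iff p hζ n).mp (hNχ n hn)
  have h₀ζ : h₀ ζ = ζ := (cycloChar_eq_one_iff p hζ h₀).mp hh₀
  have hpowχ : ∀ k : ℕ, cycloChar p (h₀ ^ k) = 1 := fun k => by rw [map_pow, hh₀, one_pow]
  have hpowb : ∀ k : ℕ, (h₀ ^ k) • x₀ - x₀ = (k : ZMod p) • (h₀ • x₀ - x₀) := by
    intro k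
    rw [hA.sub_pow hh₀, Nat.cast_smul_eq_nsmul]
  have hpow : h₀ ^ p ∈ actKer V := by
    apply hmemN
    rw [hpowb, ZMod.natCast_self, zero_smul]
  have hne : ∀ i, 0 < i → i < p → h₀ ^ i ∉ actKer V := by
    intro i hi hip hmem
    have h1 : (h₀ ^ i) • x₀ - x₀ = 0 := by rw [mem_actKer.mp hmem x₀, sub_self]
    rw [hpowb] at h1
    have hi0 : (i : ZMod p) ≠ 0 := by
      intro h0
      rw [ZMod.natCast_eq_zero_iff] at h0
      exact absurd (Nat.le_of_dvd hi h0) (by omega)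
    exact hb₀ ((smul_eq_zero.mp h1).resolve_left hi0)
  obtain ⟨β, hβ0, hβN, hβh₀⟩ :=
    exists_resolvent (actKer V) hNopen hNn hζ hNζ h₀ h₀ζ hpow hne
  have hpowβ : ∀ k : ℕ, (h₀ ^ k) β = (ζ⁻¹) ^ k * β := by
    intro k
    induction k with
    | zero => simp
    | succ k ih =>
      rw [pow_succ', AlgEquiv.mul_apply, ih, map_mul, map_pow, map_inv₀, h₀ζ, hβh₀]
      ring
  -- Kummer action of `ker χ`
  have hK : ∀ h : GQ, cycloChar p h = 1 → ∀ k : ℕ,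
      h • x₀ - x₀ = (k : ZMod p) • (h₀ • x₀ - x₀) → h β = (ζ⁻¹) ^ k * β := by
    intro h hh k hk
    have hχn : cycloChar p ((h₀ ^ k)⁻¹ * h) = 1 := by
      rw [map_mul, map_inv, hpowχ, hh, inv_one, one_mul]
    have hn : (h₀ ^ k)⁻¹ * h ∈ actKer V := by
      apply hmemN
      have h1 : (h₀ ^ k) * ((h₀ ^ k)⁻¹ * h) = h := by group
      have h2 := hA.sub_mul (hpowχ k) hχn x₀
      rw [h1, hk, hpowb] at h2
      exact left_eq_add.mp h2
    have h3 : h β = (h₀ ^ k) (((h₀ ^ k)⁻¹ * h) β) := by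
      rw [← AlgEquiv.mul_apply]
      congr 1
      group
    rw [h3, hβN _ hn, hpowβ]
  have hK' : ∀ h : GQ, cycloChar p h = 1 → ∃ k : ℕ,
      h • x₀ - x₀ = (k : ZMod p) • (h₀ • x₀ - x₀) ∧ h β = (ζ⁻¹) ^ k * β := by
    intro h hh
    haveI : NeZero p := ⟨hp.out.ne_zero⟩
    obtain ⟨a, ha⟩ := hA.exists_smul_eq hb₀C hb₀ (hA.sub_mem_of_chi_eq_one hh x₀)
    have hk : h • x₀ - x₀ = ((a.val : ℕ) : ZMod p) • (h₀ • x₀ - x₀) := by
      rw [ZMod.natCast_zmod_val]; exact ha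
    exact ⟨a.val, hk, hK h hh a.val hk⟩
  have hζinv : ζ⁻¹ = ζ ^ (p - 1) := by
    have : ζ ^ (p - 1) * ζ = 1 := by
      rw [← pow_succ, Nat.sub_add_cancel hp.out.one_le, hζ.pow_eq_one]
    exact (eq_inv_of_mul_eq_one_left this).symm
  refine ⟨β, hβ0, ?_, ?_, ?_, ?_, ?_⟩
  · -- β ^ p ∈ ℚ(ζ)
    apply mem_adjoin_of_fixed
    intro σ hσ
    obtain ⟨k, -, hk⟩ := hK' σ ((cycloChar_eq_one_iff p hζ σ).mpr hσ)
    rw [map_pow, hk, mul_pow, ← pow_mul, mul_comm k p, pow_mul, hζp, one_pow, one_mul]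
  · -- β ∉ ℚ(ζ)
    intro hmem
    have h1 := map_eq_of_mem_adjoin h₀ζ hmem
    rw [hβh₀] at h1
    have h2 : ζ⁻¹ = 1 := by
      have := mul_right_cancel₀ hβ0 (h1.trans (one_mul β).symm)
      exact this
    have h3 : ζ = 1 := by rw [← inv_inv ζ, h2, inv_one]
    exact hζ.ne_one hp.out.one_lt h3
  · intro σ hσ
    exact hβN σ (mem_actKer.mpr hσ)
  · intro σ hσ
    obtain ⟨k, -, hk⟩ := hK' σ ((cycloChar_eq_one_iff p hζ σ).mpr hσ)
    refine ⟨(p - 1) * k, ?_⟩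
    rw [hk, hζinv, ← pow_mul]
  · -- type ω²
    intro τ
    set a : ℕ := cycloExp p τ with ha
    have hτζ : τ ζ = ζ ^ a := map_of_pow_eq_one p hζ.pow_eq_one τ
    have hpow0 : β ^ (a ^ 2) ≠ 0 := pow_ne_zero _ hβ0
    refine ⟨τ β * (β ^ (a ^ 2))⁻¹, ?_, ?_⟩
    · apply mem_adjoin_of_fixed
      intro h hhζ
      have hh : cycloChar p h = 1 := (cycloChar_eq_one_iff p hζ h).mpr hhζ
      obtain ⟨k, hkb, hk⟩ := hK' h hh
      -- conjugate
      have hconjχ : cycloChar p (τ⁻¹ * h * τ) = 1 := by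
        rw [map_mul, map_mul, map_inv, hh, mul_one, inv_mul_cancel]
      have hconjb : (τ⁻¹ * h * τ) • x₀ - x₀ = ((a * k : ℕ) : ZMod p) • (h₀ • x₀ - x₀) := by
        rw [hA.sub_conj hh τ x₀, coe_cycloChar, hkb, smul_smul, Nat.cast_mul]
      have hconj := hK _ hconjχ (a * k) hconjb
      have h1 : h (τ β) = τ ((τ⁻¹ * h * τ) β) := by
        rw [← AlgEquiv.mul_apply, ← AlgEquiv.mul_apply]
        congr 1
        group
      have h2 : h (τ β) = (ζ⁻¹) ^ (a * (a * k)) * τ β := by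
        rw [h1, hconj, map_mul, map_pow, map_inv₀, hτζ, ← inv_pow, ← pow_mul]
      have h3 : h (β ^ (a ^ 2)) = (ζ⁻¹) ^ (a * (a * k)) * β ^ (a ^ 2) := by
        rw [map_pow, hk, mul_pow, ← pow_mul]
        congr 2
        ring
      rw [map_mul, map_inv₀, h2, h3]
      have hz : (ζ⁻¹) ^ (a * (a * k)) ≠ 0 := pow_ne_zero _ (inv_ne_zero hζ0)
      field_simp
    · field_simp

end Main

end Fermat.Agent.S14.H716

namespace Fermat.Agent.S14.H716

open ExtCitation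

section Local

variable {p : ℕ} [hp : Fact p.Prime]
  {V : Type} [AddCommGroup V] [Module (ZMod p) V] [DistribMulAction GQ V]
  [SMulCommClass GQ (ZMod p) V] {C : Submodule (ZMod p) V}

/-- At a place over `p`, an element of the decomposition group fixing `ζ` acts trivially
on `V` (because the extension splits locally). -/
theorem smul_eq_of_mem_decomposition (hadm : IsAdmissibleExtension p V C)
    {ζ : Qb} (hζ : IsPrimitiveRoot ζ p)
    (A : ValuationSubring Qb) (hA : A.LiesOverPrime p) {σ : GQ}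
    (hσ : σ ∈ A.decompositionSubgroup ℚ) (hσζ : σ ζ = ζ) (v : V) : σ • v = v := by
  obtain ⟨C', hstab, hcompl⟩ := hadm.locally_split A hA
  have hχ : cycloChar p σ = 1 := (cycloChar_eq_one_iff p hζ σ).mpr hσζ
  have hAdm := adm_of hadm
  have hv : v ∈ C ⊔ C' := by rw [hcompl.sup_eq_top]; trivial
  obtain ⟨c, hc, c', hc', rfl⟩ := Submodule.mem_sup.mp hv
  have h1 : σ • c' - c' ∈ C := hAdm.sub_mem_of_chi_eq_one hχ c'
  have h2 : σ • c' - c' ∈ C' := C'.sub_mem (hstab σ hσ c' hc') hc'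
  have h3 : σ • c' - c' = 0 := by
    have : σ • c' - c' ∈ C ⊓ C' := ⟨h1, h2⟩
    rw [hcompl.inf_eq_bot] at this
    exact (Submodule.mem_bot _).mp this
  rw [smul_add, hadm.fixed_sub σ c hc, sub_eq_zero.mp h3]

/-- **GALOIS block, with the local consequences spelled out.**  For a non-split admissible
extension and any primitive `p`-th root of unity `ζ ∈ ℚ̄` there is `β ∈ ℚ̄` with
* `β ≠ 0`, `β ^ p ∈ ℚ(ζ)`, `β ∉ ℚ(ζ)`;
* (Kummer) `σ ζ = ζ → σ β = ζ ^ k * β`;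
* (type `ω²`) `σ β = β ^ (cycloExp σ ^ 2) * y`, `y ∈ ℚ(ζ)`;
* (unramified outside `p`) every inertia element at a place over `ℓ ≠ p` fixes `β`;
* (split at `p`) every decomposition-group element at a place over `p` fixing `ζ` fixes `β`. -/
theorem galois_block_local (h3 : 3 ≤ p) (hadm : IsAdmissibleExtensionCts p V C)
    (hns : ¬ SplitsGlobally C) {ζ : Qb} (hζ : IsPrimitiveRoot ζ p) :
    ∃ β : Qb, β ≠ 0 ∧ β ^ p ∈ IntermediateField.adjoin ℚ {ζ} ∧
      β ∉ IntermediateField.adjoin ℚ {ζ} ∧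
      (∀ σ : GQ, σ ζ = ζ → ∃ k : ℕ, σ β = ζ ^ k * β) ∧
      (∀ σ : GQ, ∃ y ∈ IntermediateField.adjoin ℚ {ζ},
        σ β = β ^ (cycloExp p σ ^ 2) * y) ∧
      (∀ ℓ : ℕ, ℓ.Prime → ℓ ≠ p → ∀ A : ValuationSubring Qb, A.LiesOverPrime ℓ →
        ∀ σ ∈ A.inertiaSubgroupIn ℚ, σ β = β) ∧
      (∀ A : ValuationSubring Qb, A.LiesOverPrime p →
        ∀ σ ∈ A.decompositionSubgroup ℚ, σ ζ = ζ → σ β = β) := by
  obtain ⟨β, h0, hpow, hnot, hfix, hkum, htype⟩ := galois_block h3 hadm hns hζ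
  refine ⟨β, h0, hpow, hnot, hkum, htype, ?_, ?_⟩
  · intro ℓ hℓ hℓp A hA σ hσ
    exact hfix σ (hadm.unramified_outside ℓ hℓ hℓp A hA σ hσ)
  · intro A hA σ hσ hσζ
    exact hfix σ (smul_eq_of_mem_decomposition hadm.toIsAdmissibleExtension hζ A hA hσ hσζ)

end Local

end Fermat.Agent.S14.H716
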