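import Fermat.Agent.S14.H716.Cyclo

/-!
# S14, block GALOIS (helper716) — Lagrange resolvent inside `ℚ̄`
-/

set_option autoImplicit false
set_option linter.style.haveILetI false
set_option linter.unusedSectionVars false

namespace Fermat.Agent.S14.H716

open ExtCitation

/-- If `σ` fixes every element fixed by the open subgroup `N`, then `σ ∈ N`. -/
theorem mem_of_fixes_fixedField (N : Subgroup GQ) (hN : IsOpen (N : Set GQ)) {σ : GQ}
    (h : ∀ θ : Qb, (∀ n ∈ N, n θ = θ) → σ θ = θ) : σ ∈ N := by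
  haveI := isGalois_Qb
  have hcl : IsClosed (N : Set GQ) := N.isClosed_of_isOpen hN
  have key := InfiniteGalois.fixingSubgroup_fixedField (⟨N, hcl⟩ : ClosedSubgroup GQ)
  have hσ : σ ∈ (IntermediateField.fixedField N).fixingSubgroup := by
    rw [IntermediateField.mem_fixingSubgroup_iff]
    intro θ hθ
    apply h
    intro n hn
    exact (IntermediateField.mem_fixedField_iff N θ).mp hθ n hn
  have key' : (IntermediateField.fixedField N).fixingSubgroup = N := key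
  rw [key'] at hσ
  exact hσ

theorem pow_apply_of_fixes {σ : GQ} {x : Qb} (h : σ x = x) (n : ℕ) : (σ ^ n) x = x := by
  induction n with
  | zero => simp
  | succ n ih => rw [pow_succ, AlgEquiv.mul_apply, h, ih]

/-- The Lagrange resolvent: a nonzero `β`, fixed by `N`, on which `h₀` acts by `ζ⁻¹`. -/
theorem exists_resolvent {p : ℕ} [hp : Fact p.Prime] (N : Subgroup GQ)
    (hNopen : IsOpen (N : Set GQ)) (hNn : N.Normal) {ζ : Qb} (hζ : IsPrimitiveRoot ζ p)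
    (hNζ : ∀ n ∈ N, n ζ = ζ) (h₀ : GQ) (h₀ζ : h₀ ζ = ζ) (hpow : h₀ ^ p ∈ N)
    (hne : ∀ i, 0 < i → i < p → h₀ ^ i ∉ N) :
    ∃ β : Qb, β ≠ 0 ∧ (∀ n ∈ N, n β = β) ∧ h₀ β = ζ⁻¹ * β := by
  classical
  have hζ0 : ζ ≠ 0 := hζ.ne_zero hp.out.ne_zero
  let M : IntermediateField ℚ Qb := IntermediateField.fixedField N
  have hM : ∀ θ : M, ∀ n ∈ N, n (θ : Qb) = θ := fun θ n hn =>
    (IntermediateField.mem_fixedField_iff N (θ : Qb)).mp θ.2 n hn
  let f : Fin p → (M →* Qb) := fun i =>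
    ((h₀ ^ (i : ℕ) : GQ) : Qb →* Qb).comp ((algebraMap M Qb : M →+* Qb) : M →* Qb)
  have hf : ∀ (i : Fin p) (θ : M), f i θ = (h₀ ^ (i : ℕ)) (θ : Qb) := fun i θ => rfl
  have hinj : Function.Injective f := by
    intro i j hij
    by_contra hne'
    -- wlog i < j
    have key : ∀ i j : Fin p, (i : ℕ) < j → f i = f j → False := by
      intro i j hlt hij
      apply hne (j - i) (by omega) (by omega)
      apply mem_of_fixes_fixedField N hNopen
      intro θ hθ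
      have h1 : f i ⟨θ, (IntermediateField.mem_fixedField_iff N θ).mpr hθ⟩ =
          f j ⟨θ, (IntermediateField.mem_fixedField_iff N θ).mpr hθ⟩ := by rw [hij]
      rw [hf, hf] at h1
      simp only at h1
      have h2 : (h₀ ^ (j : ℕ)) = (h₀ ^ (i : ℕ)) * (h₀ ^ ((j : ℕ) - i)) := by
        rw [← pow_add]; congr 1; omega
      rw [h2, AlgEquiv.mul_apply] at h1
      exact ((h₀ ^ (i : ℕ)).injective h1).symm
    rcases Nat.lt_or_gt_of_ne (fun h => hne' (Fin.ext h)) with hlt | hlt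
    · exact key i j hlt hij
    · exact key j i hlt hij.symm
  have hli : LinearIndependent Qb (fun i : Fin p => ((f i : M →* Qb) : M → Qb)) :=
    (linearIndependent_monoidHom M Qb).comp f hinj
  have hex : ∃ θ : M, ∑ i : Fin p, ζ ^ (i : ℕ) * (h₀ ^ (i : ℕ)) (θ : Qb) ≠ 0 := by
    by_contra hcon
    push Not at hcon
    have hsum : ∑ i : Fin p, (ζ ^ (i : ℕ)) • ((f i : M →* Qb) : M → Qb) = 0 := by
      funext θ
      rw [Finset.sum_apply]
      simp only [Pi.smul_apply, smul_eq_mul, Pi.zero_apply]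
      exact hcon θ
    have h0 := Fintype.linearIndependent_iff.mp hli (fun i => ζ ^ (i : ℕ)) hsum
      ⟨0, hp.out.pos⟩
    simp at h0
  obtain ⟨θ, hθ⟩ := hex
  have hθN : ∀ n ∈ N, n (θ : Qb) = θ := hM θ
  set g : ℕ → Qb := fun i => ζ ^ i * (h₀ ^ i) (θ : Qb) with hg
  have hβ : ∑ i : Fin p, ζ ^ (i : ℕ) * (h₀ ^ (i : ℕ)) (θ : Qb) = ∑ i ∈ Finset.range p, g i :=
    (Finset.sum_range g).symm
  rw [hβ] at hθ
  refine ⟨∑ i ∈ Finset.range p, g i, hθ, ?_, ?_⟩
  · intro n hn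
    rw [map_sum]
    refine Finset.sum_congr rfl fun i _ => ?_
    simp only [hg, map_mul, map_pow, hNζ n hn]
    congr 1
    -- n (h₀^i θ) = h₀^i ((h₀^i)⁻¹ n h₀^i θ)
    have hconj : (h₀ ^ i)⁻¹ * n * ((h₀ ^ i)⁻¹)⁻¹ ∈ N := hNn.conj_mem n hn _
    have h1 := hθN _ hconj
    have h2 : n * h₀ ^ i = h₀ ^ i * ((h₀ ^ i)⁻¹ * n * ((h₀ ^ i)⁻¹)⁻¹) := by group
    calc n ((h₀ ^ i) (θ : Qb)) = (n * h₀ ^ i) (θ : Qb) := rfl
      _ = (h₀ ^ i * ((h₀ ^ i)⁻¹ * n * ((h₀ ^ i)⁻¹)⁻¹)) (θ : Qb) := by rw [h2]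
      _ = (h₀ ^ i) (((h₀ ^ i)⁻¹ * n * ((h₀ ^ i)⁻¹)⁻¹) (θ : Qb)) := rfl
      _ = (h₀ ^ i) (θ : Qb) := by rw [h1]
  · -- ζ * h₀ β = β
    have h1 : ζ * h₀ (∑ i ∈ Finset.range p, g i) = ∑ i ∈ Finset.range p, g (i + 1) := by
      rw [map_sum, Finset.mul_sum]
      refine Finset.sum_congr rfl fun i _ => ?_
      simp only [hg, map_mul, map_pow, h₀ζ]
      rw [pow_succ ζ, pow_succ' h₀]
      have : h₀ ((h₀ ^ i) (θ : Qb)) = (h₀ * h₀ ^ i) (θ : Qb) := rfl
      rw [this]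
      ring
    have h2 : ∑ i ∈ Finset.range p, g (i + 1) + g 0 = ∑ i ∈ Finset.range p, g i + g p := by
      rw [← Finset.sum_range_succ' g p, Finset.sum_range_succ g p]
    have h3 : g p = g 0 := by
      simp only [hg, hζ.pow_eq_one, pow_zero, one_mul]
      rw [hθN _ hpow]
      rfl
    rw [h3] at h2
    have h4 : ∑ i ∈ Finset.range p, g (i + 1) = ∑ i ∈ Finset.range p, g i := add_right_cancel h2
    rw [h4] at h1
    exact (eq_inv_mul_iff_mul_eq₀ hζ0).mpr h1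

end Fermat.Agent.S14.H716
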